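/-
S24 blueprint (helper23).  Interfaces only: definitions + statement-Props, no proofs of
hard facts.  Everything lives in namespace `Fermat.Agent.H23`.
-/
import Fermat.Statements.S24

set_option autoImplicit false

noncomputable section

open AlgebraicCurve KaehlerDifferential IntermediateField

namespace Fermat.Agent.H23

/-- Number of orbits (cycles, fixed points included) of a permutation of a finite type. -/
def numOrbits {I : Type} (ε : Equiv.Perm I) : ℕ :=
  Nat.card (Quotient (Equiv.Perm.SameCycle.setoid ε))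

/-- A *local uniformization datum* for the zeros of `y : F`: a finite family of embeddings
`σ i` of `F` into a field `M` carrying a `ℤ`-valued valuation `val` (trivial on the constants)
and a derivation `der` lowering nonzero orders by exactly one; all `σ i` agree on the constants
and send `y` to the same element, of order `e₀ > 0`; they are permuted by `ε`.

Intended model: `M` = meromorphic germs at a point `τ₀` of the upper half plane (or at the cusp,
in the variable `q^(1/N)`), `val` = order of vanishing, `der` = derivative, `I` = cosets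
`SL(2,ℤ) ⧸ Γ₀(N)`, `σ (γ Γ₀) f` = germ of `f ∘ γ⁻¹`, `ε` = action of a generator of the
stabilizer of `τ₀`. -/
structure LocalDatum (K F : Type) [Field K] [Field F] [Algebra K F] (y : F) where
  /-- the valued differential field -/
  M : Type
  [fieldM : Field M]
  /-- the (additive) valuation -/
  val : AddValuation M (WithTop ℤ)
  /-- the derivation -/
  der : M → M
  der_add : ∀ a b : M, der (a + b) = der a + der b
  der_mul : ∀ a b : M, der (a * b) = a * der b + der a * b
  val_der : ∀ (a : M) (n : ℤ), n ≠ 0 → val a = (n : WithTop ℤ) →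
    val (der a) = ((n - 1 : ℤ) : WithTop ℤ)
  /-- index set (cosets) -/
  I : Type
  [fintypeI : Fintype I]
  /-- the embeddings -/
  σ : I → (F →+* M)
  val_const : ∀ (i : I) (c : K), c ≠ 0 → val (σ i (algebraMap K F c)) = 0
  der_const : ∀ (i : I) (c : K), der (σ i (algebraMap K F c)) = 0
  σ_const : ∀ (i i' : I) (c : K), σ i (algebraMap K F c) = σ i' (algebraMap K F c)
  σ_inj : Function.Injective σ
  σ_y : ∀ i i' : I, σ i y = σ i' y
  /-- common order of vanishing of `y` -/
  e₀ : ℕ
  e₀_pos : 0 < e₀
  val_y : ∀ i : I, val (σ i y) = ((e₀ : ℤ) : WithTop ℤ)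
  /-- the permutation (stabilizer generator acting on cosets) -/
  ε : Equiv.Perm I
  val_ε : ∀ (i : I) (f : F), val (σ (ε i) f) = val (σ i f)
  val_dvd : ∀ (i : I) (k : ℕ), (ε ^ k) i = i → ∀ f : F, f ≠ 0 →
    ∃ m : ℤ, val (σ i f) = ((((e₀ / Nat.gcd e₀ k : ℕ) : ℤ) * m : ℤ) : WithTop ℤ)

attribute [instance] LocalDatum.fieldM LocalDatum.fintypeI

/-- **Package RH** (pure algebra; abstract Riemann–Hurwitz for a function field `F/K`
equipped with local uniformization data over every point of the `x`-line). -/
def RiemannHurwitzStatement : Prop :=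
  ∀ (K F : Type) [Field K] [Field F] [Algebra K F] [IsAlgClosed K] [CharZero K]
    [HasCanonicalDivisor (K := K) (F := F)]
    (x : F), Transcendental K x → FiniteDimensional K⟮x⟯ F →
    ∀ (S : Finset K)
      (L : ∀ a : K, LocalDatum K F (x - algebraMap K F a))
      (Linf : LocalDatum K F x⁻¹),
      (∀ a, Fintype.card (L a).I = Module.finrank K⟮x⟯ F) →
      Fintype.card Linf.I = Module.finrank K⟮x⟯ F →
      (∀ a, a ∉ S → (L a).ε = 1) →
      (∃ ω : Ω[F⁄K], ω ≠ 0) ∧
      ∀ (ω : Ω[F⁄K]), ω ≠ 0 → ∀ D : Divisor K F, (∀ v, D v = v.ordDifferential ω) →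
        Divisor.degree D =
          -2 * (Module.finrank K⟮x⟯ F : ℤ)
            + ∑ a ∈ S, ((Module.finrank K⟮x⟯ F : ℤ) - numOrbits (L a).ε)
            + ((Module.finrank K⟮x⟯ F : ℤ) - numOrbits Linf.ε)

/-- **Package MOD** (modular input): the function field of `X₀(N)` over `ℚ̄`, with `x = j`,
has degree `ψ(N)` over `ℚ̄(j)` and carries local uniformization data whose permutations have the
classical numbers of cycles. -/
def ModularDataStatement (N : ℕ) [NeZero N] : Prop :=
  ∃ x : ↥(ModularCurve.modularFunctionFieldBar N),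
    Transcendental (AlgebraicClosure ℚ) x ∧
    FiniteDimensional (AlgebraicClosure ℚ)⟮x⟯ ↥(ModularCurve.modularFunctionFieldBar N) ∧
    Module.finrank (AlgebraicClosure ℚ)⟮x⟯ ↥(ModularCurve.modularFunctionFieldBar N)
      = ModularCurve.dedekindPsi N ∧
    ∃ (a₀ a₁ : AlgebraicClosure ℚ), a₀ ≠ a₁ ∧
    ∃ (L : ∀ a : AlgebraicClosure ℚ,
          LocalDatum (AlgebraicClosure ℚ) ↥(ModularCurve.modularFunctionFieldBar N)
            (x - algebraMap _ _ a))
      (Linf : LocalDatum (AlgebraicClosure ℚ) ↥(ModularCurve.modularFunctionFieldBar N) x⁻¹),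
      (∀ a, Fintype.card (L a).I = ModularCurve.dedekindPsi N) ∧
      Fintype.card Linf.I = ModularCurve.dedekindPsi N ∧
      (∀ a, a ≠ a₀ → a ≠ a₁ → (L a).ε = 1) ∧
      3 * numOrbits (L a₀).ε = ModularCurve.dedekindPsi N + 2 * ModularCurve.nuThree N ∧
      2 * numOrbits (L a₁).ε = ModularCurve.dedekindPsi N + ModularCurve.nuTwo N ∧
      numOrbits Linf.ε = ModularCurve.cuspCount N

/-- **Package NUM**: the genus formula takes values in `ℕ`. -/
def GenusNatStatement (N : ℕ) : Prop :=
  ∃ g : ℕ, ModularCurve.genusFormula N = (g : ℚ)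

end Fermat.Agent.H23

end
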