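/-
S24 blueprint, modular side (helper23): interfaces for the analytic / degree / combinatorics
packages.  Definitions and statement-Props only.
-/
import Fermat.Agent.H23.Blueprint

set_option autoImplicit false

noncomputable section

open AlgebraicCurve KaehlerDifferential IntermediateField
open scoped MatrixGroups

namespace Fermat.Agent.H23

/-- The element `j` of the function field of `X₀(N)` over `ℚ̄` (the `q`-series `jq`, with
coefficients pushed to `ℚ̄`). -/
def jBar (N : ℕ) [NeZero N] : ↥(ModularCurve.modularFunctionFieldBar N) :=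
  ⟨ModularCurve.coeffEmb (AlgebraicClosure ℚ) ModularCurve.jq,
    ModularCurve.coeffEmb_mem_laurentBaseChange _ (by
      have h := ModularCurve.jqd_mem_full N (one_dvd N)
      rwa [ModularCurve.qExpand_one_apply] at h)⟩

/-- The elements `j(q^d)`, `d ∣ N`, of the function field. -/
def jBarD (N : ℕ) [NeZero N] (d : ℕ) [NeZero d] (hd : d ∣ N) :
    ↥(ModularCurve.modularFunctionFieldBar N) :=
  ⟨ModularCurve.coeffEmb (AlgebraicClosure ℚ) (ModularCurve.qExpand ℚ d ModularCurve.jq),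
    ModularCurve.coeffEmb_mem_laurentBaseChange _ (ModularCurve.jqd_mem_full N hd)⟩

/-- **Analytic datum** at a point: a valued differential field `M` (think: meromorphic germs at
`τ₀`, resp. at the cusp in the variable `q^(1/N)`) and a family of embeddings of the function
field into `M` indexed by `γ ∈ SL(2,ℤ)` (think: germ at `τ₀` of `f ∘ γ⁻¹`), depending exactly on
the left coset `γ Γ₀(N)`; `g` generates the stabilizer of the point and `e₀` is the order of
vanishing of `y` there. -/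
structure AnalyticDatum (N : ℕ) [NeZero N] (y : ↥(ModularCurve.modularFunctionFieldBar N))
    (g : SL(2, ℤ)) (e₀ : ℕ) where
  M : Type
  [fieldM : Field M]
  val : AddValuation M (WithTop ℤ)
  der : M → M
  der_add : ∀ a b : M, der (a + b) = der a + der b
  der_mul : ∀ a b : M, der (a * b) = a * der b + der a * b
  val_der : ∀ (a : M) (n : ℤ), n ≠ 0 → val a = (n : WithTop ℤ) →
    val (der a) = ((n - 1 : ℤ) : WithTop ℤ)
  σ : SL(2, ℤ) → (↥(ModularCurve.modularFunctionFieldBar N) →+* M)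
  val_const : ∀ (γ : SL(2, ℤ)) (c : AlgebraicClosure ℚ), c ≠ 0 →
    val (σ γ (algebraMap (AlgebraicClosure ℚ) ↥(ModularCurve.modularFunctionFieldBar N) c)) = 0
  der_const : ∀ (γ : SL(2, ℤ)) (c : AlgebraicClosure ℚ),
    der (σ γ (algebraMap (AlgebraicClosure ℚ) ↥(ModularCurve.modularFunctionFieldBar N) c)) = 0
  σ_const : ∀ (γ γ' : SL(2, ℤ)) (c : AlgebraicClosure ℚ),
    σ γ (algebraMap (AlgebraicClosure ℚ) ↥(ModularCurve.modularFunctionFieldBar N) c)
      = σ γ' (algebraMap (AlgebraicClosure ℚ) ↥(ModularCurve.modularFunctionFieldBar N) c)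
  σ_eq_iff : ∀ γ γ' : SL(2, ℤ), σ γ = σ γ' ↔ γ⁻¹ * γ' ∈ CongruenceSubgroup.Gamma0 N
  σ_y : ∀ γ γ' : SL(2, ℤ), σ γ y = σ γ' y
  val_y : ∀ γ : SL(2, ℤ), val (σ γ y) = ((e₀ : ℤ) : WithTop ℤ)
  val_g : ∀ (γ : SL(2, ℤ)) (f : ↥(ModularCurve.modularFunctionFieldBar N)),
    val (σ (g * γ) f) = val (σ γ f)
  val_dvd : ∀ (γ : SL(2, ℤ)) (k : ℕ), γ⁻¹ * g ^ k * γ ∈ CongruenceSubgroup.Gamma0 N →
    ∀ f : ↥(ModularCurve.modularFunctionFieldBar N), f ≠ 0 →
      ∃ m : ℤ, val (σ γ f) = ((((e₀ / Nat.gcd e₀ k : ℕ) : ℤ) * m : ℤ) : WithTop ℤ)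

attribute [instance] AnalyticDatum.fieldM

/-- **Package AN** (analysis): analytic data at every point of the `j`-line. -/
def AnalyticStatement (N : ℕ) [NeZero N] : Prop :=
  (∀ a : AlgebraicClosure ℚ, a ≠ 0 → a ≠ 1728 →
      Nonempty (AnalyticDatum N (jBar N - algebraMap _ _ a) 1 1)) ∧
    Nonempty (AnalyticDatum N (jBar N - algebraMap _ _ (0 : AlgebraicClosure ℚ))
      (ModularGroup.S * ModularGroup.T) 3) ∧
    Nonempty (AnalyticDatum N (jBar N - algebraMap _ _ (1728 : AlgebraicClosure ℚ))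
      ModularGroup.S 2) ∧
    Nonempty (AnalyticDatum N (jBar N)⁻¹ ModularGroup.T N)

/-- **Package DEG** (degree of the modular equation): `j` is transcendental and the function
field has degree at most `[SL(2,ℤ) : Γ₀(N)]` over `ℚ̄(j)`. -/
def DegreeStatement (N : ℕ) [NeZero N] : Prop :=
  Transcendental (AlgebraicClosure ℚ) (jBar N) ∧
    FiniteDimensional (AlgebraicClosure ℚ)⟮jBar N⟯ ↥(ModularCurve.modularFunctionFieldBar N) ∧
    Module.finrank (AlgebraicClosure ℚ)⟮jBar N⟯ ↥(ModularCurve.modularFunctionFieldBar N)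
      ≤ Nat.card (SL(2, ℤ) ⧸ CongruenceSubgroup.Gamma0 N)

/-- **Package COMB** (finite combinatorics of the left action of `SL(2,ℤ)` on
`SL(2,ℤ) ⧸ Γ₀(N) ≃ ℙ¹(ℤ/N)`). -/
def CosetCombinatoricsStatement (N : ℕ) [NeZero N] : Prop :=
  Nat.card (SL(2, ℤ) ⧸ CongruenceSubgroup.Gamma0 N) = ModularCurve.dedekindPsi N ∧
    3 * numOrbits (MulAction.toPerm (ModularGroup.S * ModularGroup.T) :
        Equiv.Perm (SL(2, ℤ) ⧸ CongruenceSubgroup.Gamma0 N))
      = ModularCurve.dedekindPsi N + 2 * ModularCurve.nuThree N ∧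
    2 * numOrbits (MulAction.toPerm ModularGroup.S :
        Equiv.Perm (SL(2, ℤ) ⧸ CongruenceSubgroup.Gamma0 N))
      = ModularCurve.dedekindPsi N + ModularCurve.nuTwo N ∧
    numOrbits (MulAction.toPerm ModularGroup.T :
        Equiv.Perm (SL(2, ℤ) ⧸ CongruenceSubgroup.Gamma0 N))
      = ModularCurve.cuspCount N

end Fermat.Agent.H23

end
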