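/-
S24 blueprint, analytic side (helper23): common definitions and statement-Props for the
analytic sub-packages.
-/
import Fermat.Agent.H23.BlueprintMod

set_option autoImplicit false

noncomputable section

open AlgebraicCurve KaehlerDifferential IntermediateField UpperHalfPlane
open scoped MatrixGroups Manifold Topology

namespace Fermat.Agent.H23

/-- The analytic `j`-function `E₄³/Δ` on the upper half plane. -/
def jfun (z : ℍ) : ℂ := (ModularForm.E₄ z) ^ 3 / ModularForm.discriminant z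

/-- `z ↦ d z` on the upper half plane (`d ≥ 1`). -/
def scaleH (d : ℕ) [NeZero d] (z : ℍ) : ℍ :=
  ⟨(d : ℂ) * (z : ℂ), by
    have hd : (0 : ℝ) < d := by exact_mod_cast Nat.pos_of_ne_zero (NeZero.ne d)
    have : ((d : ℂ) * (z : ℂ)).im = d * z.im := by simp
    rw [this]
    exact mul_pos hd z.im_pos⟩

/-- The `ℚ̄`-subalgebra of the function field generated by the `j(q^d)`, `d ∣ N`. -/
def Rsub (N : ℕ) [NeZero N] :
    Subalgebra (AlgebraicClosure ℚ) ↥(ModularCurve.modularFunctionFieldBar N) :=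
  Algebra.adjoin (AlgebraicClosure ℚ)
    {x | ∃ (d : ℕ) (_ : NeZero d) (hd : d ∣ N), x = jBarD N d hd}

/-- **AN-Θ (core)**: the elements of `Rsub N` are (the `q`-expansions of) holomorphic functions on
the upper half plane: there is an injective ring hom `Θ` from `Rsub N` to functions `ℍ → ℂ`,
with holomorphic values, sending `j(q^d)` to `z ↦ jfun (d z)` and constants to constants; and the
function field is the fraction field of `Rsub N`. -/
def CoreStatement (N : ℕ) [NeZero N] : Prop :=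
  ∃ (ι : AlgebraicClosure ℚ →+* ℂ) (Θ : ↥(Rsub N) →+* (ℍ → ℂ)),
    Function.Injective Θ ∧
    (∀ r, MDiff (Θ r)) ∧
    (∀ c : AlgebraicClosure ℚ, Θ (algebraMap (AlgebraicClosure ℚ) ↥(Rsub N) c) = fun _ => ι c) ∧
    (∀ (d : ℕ) (_ : NeZero d) (hd : d ∣ N) (h : jBarD N d hd ∈ Rsub N),
      Θ ⟨jBarD N d hd, h⟩ = fun z => jfun (scaleH d z)) ∧
    (∀ f : ↥(ModularCurve.modularFunctionFieldBar N), ∃ r s : ↥(Rsub N), s ≠ 0 ∧
      f * (s : ↥(ModularCurve.modularFunctionFieldBar N)) = r)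

/-- **AN-G** interface: a model of the field of meromorphic germs at `x : ℂ`, with its order
valuation and derivative. `germ f` is the germ of `f` (junk value unless `MeromorphicAt f x`). -/
structure MerGermField (x : ℂ) where
  M : Type
  [fieldM : Field M]
  val : AddValuation M (WithTop ℤ)
  der : M → M
  der_add : ∀ a b : M, der (a + b) = der a + der b
  der_mul : ∀ a b : M, der (a * b) = a * der b + der a * b
  val_der : ∀ (a : M) (n : ℤ), n ≠ 0 → val a = (n : WithTop ℤ) →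
    val (der a) = ((n - 1 : ℤ) : WithTop ℤ)
  germ : (ℂ → ℂ) → M
  germ_surj : ∀ a : M, ∃ f : ℂ → ℂ, MeromorphicAt f x ∧ germ f = a
  germ_add : ∀ f g : ℂ → ℂ, MeromorphicAt f x → MeromorphicAt g x →
    germ (f + g) = germ f + germ g
  germ_mul : ∀ f g : ℂ → ℂ, MeromorphicAt f x → MeromorphicAt g x →
    germ (f * g) = germ f * germ g
  germ_one : germ (fun _ => 1) = 1
  germ_eq_iff : ∀ f g : ℂ → ℂ, MeromorphicAt f x → MeromorphicAt g x →
    (germ f = germ g ↔ f =ᶠ[𝓝[≠] x] g)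
  val_germ : ∀ f : ℂ → ℂ, MeromorphicAt f x → val (germ f) = meromorphicOrderAt f x
  der_germ : ∀ f : ℂ → ℂ, MeromorphicAt f x → der (germ f) = germ (deriv f)

attribute [instance] MerGermField.fieldM

/-- **AN-G**: meromorphic germ fields exist at every point. -/
def MerGermStatement : Prop := ∀ x : ℂ, Nonempty (MerGermField x)

/-- **AN-J**: the needed facts about the analytic `j`-function. -/
def JFactsStatement : Prop :=
  -- invariance and holomorphy
  (∀ (γ : SL(2, ℤ)) (z : ℍ), jfun (γ • z) = jfun z) ∧ MDiff jfun ∧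
  -- surjectivity
  (∀ a : ℂ, ∃ z : ℍ, jfun z = a) ∧
  -- orders of vanishing of `j - j(z₀)`
  (∀ z₀ : ℍ, jfun z₀ ≠ 0 → jfun z₀ ≠ 1728 →
    meromorphicOrderAt ((fun z => jfun z - jfun z₀) ∘ ofComplex) (z₀ : ℂ) = 1) ∧
  (∃ z₀ : ℍ, ModularGroup.S • z₀ = z₀ ∧ jfun z₀ = 1728 ∧
    meromorphicOrderAt ((fun z => jfun z - 1728) ∘ ofComplex) (z₀ : ℂ) = 2) ∧
  (∃ z₀ : ℍ, (ModularGroup.S * ModularGroup.T) • z₀ = z₀ ∧ jfun z₀ = 0 ∧
    meromorphicOrderAt (jfun ∘ ofComplex) (z₀ : ℂ) = 3)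

/-- **AN-SEP**: the stabilizer of `z ↦ j(N z)` in `SL(2,ℤ)` is exactly `Γ₀(N)`, and all
`z ↦ j(d z)`, `d ∣ N`, are `Γ₀(N)`-invariant. -/
def SeparationStatement (N : ℕ) [NeZero N] : Prop :=
  (∀ γ : SL(2, ℤ), (∀ z : ℍ, jfun (scaleH N (γ • z)) = jfun (scaleH N z)) →
    γ ∈ CongruenceSubgroup.Gamma0 N) ∧
  (∀ (d : ℕ) (_ : NeZero d), d ∣ N → ∀ γ ∈ CongruenceSubgroup.Gamma0 N, ∀ z : ℍ,
    jfun (scaleH d (γ • z)) = jfun (scaleH d z))

end Fermat.Agent.H23

end
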