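/-
Basic lemmas on `AlgebraicCurve.Place.ord` (helper23), shared by the P-GENUS subtasks.
-/
import Fermat.Prelude.Def_AlgebraicCurve_Repartitions
import Fermat.Prelude.Def_AlgebraicCurve_IsCurveOver

set_option autoImplicit false

noncomputable section

open AlgebraicCurve WithZero IsLocalRing IsDedekindDomain

namespace Fermat.Agent.H23

variable {K F : Type*} [Field K] [Field F] [Algebra K F] (v : Place K F)

/-- The adic valuation of an element of the maximal ideal is `< 1`. -/
theorem adicValuation_lt_one_of_mem_maximalIdeal (a : v.toValuationSubring)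
    (ha : a ∈ maximalIdeal v.toValuationSubring) : v.adicValuation (a : F) < 1 := by
  have h := (v.heightOneSpectrum.valuation_lt_one_iff_mem (K := F) a).mpr
    (by rw [Place.heightOneSpectrum_asIdeal]; exact ha)
  exact h

theorem mem_of_adicValuation_le_one {f : F} (h : v.adicValuation f ≤ 1) :
    f ∈ v.toValuationSubring := by
  by_contra hf
  have hf0 : f ≠ 0 := fun h0 => hf (h0 ▸ v.toValuationSubring.zero_mem)
  have hinv : f⁻¹ ∈ v.toValuationSubring :=
    (v.toValuationSubring.mem_or_inv_mem f).resolve_left hf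
  have hnu : (⟨f⁻¹, hinv⟩ : v.toValuationSubring) ∈ maximalIdeal v.toValuationSubring := by
    rw [mem_maximalIdeal, mem_nonunits_iff]
    intro hu
    obtain ⟨u, hu⟩ := hu
    apply hf
    have h1 : ((u⁻¹ : v.toValuationSubringˣ) : v.toValuationSubring) * ⟨f⁻¹, hinv⟩ = 1 := by
      rw [← hu]; exact Units.inv_mul u
    have h2 : (((u⁻¹ : v.toValuationSubringˣ) : v.toValuationSubring) : F) * f⁻¹ = 1 := by
      have := congrArg (Subtype.val) h1
      simpa using this
    have h3 : (((u⁻¹ : v.toValuationSubringˣ) : v.toValuationSubring) : F) = f := by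
      field_simp at h2
      exact h2
    rw [← h3]
    exact Subtype.property _
  have hlt := adicValuation_lt_one_of_mem_maximalIdeal v _ hnu
  simp only [map_inv₀] at hlt
  have hne := v.adicValuation_ne_zero hf0
  have : 1 < v.adicValuation f := by
    rwa [inv_lt_one₀ (zero_lt_iff.mpr hne)] at hlt
  exact absurd h (not_le.mpr this)

theorem mem_iff_adicValuation_le_one {f : F} :
    f ∈ v.toValuationSubring ↔ v.adicValuation f ≤ 1 :=
  ⟨v.adicValuation_le_one_of_mem, mem_of_adicValuation_le_one v⟩

/-- Membership in the valuation ring of a place in terms of `ord`. -/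
theorem mem_iff_ord {f : F} : f ∈ v.toValuationSubring ↔ f = 0 ∨ 0 ≤ v.ord f := by
  rw [mem_iff_adicValuation_le_one, v.adicValuation_le_one_iff]

theorem mem_of_ord_nonneg {f : F} (h : 0 ≤ v.ord f) : f ∈ v.toValuationSubring :=
  (mem_iff_ord v).mpr (Or.inr h)

theorem ord_nonneg_of_mem {f : F} (h : f ∈ v.toValuationSubring) : 0 ≤ v.ord f := by
  rcases (mem_iff_ord v).mp h with h0 | h0
  · simp [h0]
  · exact h0

theorem adicValuation_lt_one_iff {f : F} : v.adicValuation f < 1 ↔ f = 0 ∨ 0 < v.ord f := by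
  rcases eq_or_ne f 0 with rfl | hf
  · simp
  · rw [v.adicValuation_eq_exp_neg_ord hf, or_iff_right hf, ← exp_zero, exp_lt_exp]
    omega

/-- Membership in the maximal ideal in terms of `ord`. -/
theorem mem_maximalIdeal_iff_ord (a : v.toValuationSubring) :
    a ∈ maximalIdeal v.toValuationSubring ↔ (a : F) = 0 ∨ 0 < v.ord (a : F) := by
  rw [← adicValuation_lt_one_iff]
  have := v.heightOneSpectrum.valuation_lt_one_iff_mem (K := F) a
  rw [Place.heightOneSpectrum_asIdeal] at this
  exact this.symm

theorem ord_algebraMap (c : K) : v.ord (algebraMap K F c) = 0 := by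
  have h1 : 0 ≤ v.ord (algebraMap K F c) := ord_nonneg_of_mem v (v.algebraMap_mem' c)
  have h2 : 0 ≤ v.ord (algebraMap K F c)⁻¹ := by
    rw [← map_inv₀]
    exact ord_nonneg_of_mem v (v.algebraMap_mem' c⁻¹)
  rw [v.ord_inv] at h2
  omega

theorem ord_neg (f : F) : v.ord (-f) = v.ord f := by
  simp [Place.ord]

/-- Ultrametric inequality for `ord`. -/
theorem ord_add_ge {f g : F} (hfg : f + g ≠ 0) (n : ℤ)
    (hf : f = 0 ∨ n ≤ v.ord f) (hg : g = 0 ∨ n ≤ v.ord g) : n ≤ v.ord (f + g) := by
  have key : v.adicValuation (f + g) ≤ exp (-n) := by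
    refine (Valuation.map_add _ _ _).trans (max_le ?_ ?_)
    · rw [v.adicValuation_le_exp_iff]; simpa using hf
    · rw [v.adicValuation_le_exp_iff]; simpa using hg
  rw [v.adicValuation_le_exp_iff] at key
  simpa [hfg] using key

/-- If `ord f < ord g` then `ord (f + g) = ord f`. -/
theorem ord_add_eq_of_lt {f g : F} (hf : f ≠ 0) (hg : g ≠ 0) (h : v.ord f < v.ord g) :
    v.ord (f + g) = v.ord f := by
  have hfg : f + g ≠ 0 := by
    intro h0
    have : g = -f := by linear_combination h0
    rw [this, ord_neg] at h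
    exact lt_irrefl _ h
  have h1 : v.ord f ≤ v.ord (f + g) :=
    ord_add_ge v hfg _ (Or.inr le_rfl) (Or.inr h.le)
  by_contra hne
  have h2 : v.ord f < v.ord (f + g) := lt_of_le_of_ne h1 (Ne.symm hne)
  have h3 : min (v.ord (f + g)) (v.ord g) ≤ v.ord ((f + g) + (-g)) := by
    refine ord_add_ge v (by simpa using hf) _ (Or.inr (min_le_left _ _)) (Or.inr ?_)
    rw [ord_neg]; exact min_le_right _ _
  simp only [add_neg_cancel_right] at h3
  have : v.ord f < min (v.ord (f + g)) (v.ord g) := lt_min h2 h
  omega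

/-- Two places with the same valuation ring (expressed through `ord`) are equal. -/
theorem place_ext_of_ord (v w : Place K F) (h : ∀ f : F, 0 ≤ v.ord f → 0 ≤ w.ord f) :
    v = w := by
  have hle : v.toValuationSubring ≤ w.toValuationSubring := by
    intro f hf
    exact mem_of_ord_nonneg w (h f (ord_nonneg_of_mem v hf))
  apply Place.ext
  refine le_antisymm hle ?_
  intro f hf
  by_contra hfv
  have hf0 : f ≠ 0 := fun h0 => hfv (h0 ▸ v.toValuationSubring.zero_mem)
  -- `f ∉ O_v`, so `ord_v f < 0`, `ord_v f⁻¹ > 0`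
  have hneg : v.ord f < 0 := by
    by_contra hc
    exact hfv (mem_of_ord_nonneg v (not_lt.mp hc))
  -- take `g` with `ord_w g < 0`
  obtain ⟨g, hg⟩ : ∃ g : F, g ∉ w.toValuationSubring := by
    by_contra hall
    simp only [not_exists, not_not] at hall
    exact w.ne_top' (SetLike.ext fun x => ⟨fun _ => ValuationSubring.mem_top x, fun _ => hall x⟩)
  have hg0 : g ≠ 0 := fun h0 => hg (h0 ▸ w.toValuationSubring.zero_mem)
  have hgw : w.ord g < 0 := by
    by_contra hc
    exact hg (mem_of_ord_nonneg w (not_lt.mp hc))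
  have hfw : 0 ≤ w.ord f := ord_nonneg_of_mem w hf
  -- consider `f⁻¹ ^ k * g` for large `k`: in `O_v`, hence in `O_w`, but `ord_w` is negative
  obtain ⟨k, hk⟩ : ∃ k : ℕ, 0 ≤ (k : ℤ) * (-(v.ord f)) + v.ord g := by
    refine ⟨(-(v.ord g)).toNat, ?_⟩
    have h1 : (1 : ℤ) ≤ -(v.ord f) := by omega
    rcases le_or_gt 0 (v.ord g) with h2 | h2
    · have : (0:ℤ) ≤ ((-(v.ord g)).toNat : ℤ) * (-(v.ord f)) :=
        mul_nonneg (Int.natCast_nonneg _) (by omega)
      omega
    · have h3 : ((-(v.ord g)).toNat : ℤ) = -(v.ord g) := Int.toNat_of_nonneg (by omega)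
      rw [h3]
      nlinarith
  have hfk0 : (f⁻¹) ^ k ≠ 0 := pow_ne_zero _ (inv_ne_zero hf0)
  have hv : 0 ≤ v.ord ((f⁻¹) ^ k * g) := by
    rw [v.ord_mul hfk0 hg0, ← zpow_natCast, v.ord_zpow, v.ord_inv]
    linarith
  have hw := h _ hv
  rw [w.ord_mul hfk0 hg0, ← zpow_natCast, w.ord_zpow, w.ord_inv] at hw
  have : (k : ℤ) * -(w.ord f) ≤ 0 := by
    have := mul_nonneg (Int.natCast_nonneg k) hfw
    linarith
  omega

end Fermat.Agent.H23

end

noncomputable section

open AlgebraicCurve WithZero IsLocalRing IsDedekindDomain KaehlerDifferential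

namespace Fermat.Agent.H23

variable {K F : Type*} [Field K] [Field F] [Algebra K F] (v : Place K F)

/-- If the residue degree is one, every element of the valuation ring is congruent to a constant
modulo the maximal ideal. -/
theorem exists_const_sub_mem_maximalIdeal (hdeg : v.deg = 1) (a : v.toValuationSubring) :
    ∃ c : K, a - algebraMap K v.toValuationSubring c ∈ maximalIdeal v.toValuationSubring := by
  have hsurj : Function.Surjective (algebraMap K v.ResidueField) := by
    rw [Algebra.surjective_algebraMap_iff]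
    exact (Subalgebra.bot_eq_top_of_finrank_eq_one hdeg).symm
  obtain ⟨c, hc⟩ := hsurj (IsLocalRing.residue _ a)
  refine ⟨c, ?_⟩
  rw [← IsLocalRing.residue_eq_zero_iff, map_sub, sub_eq_zero, ← hc]
  rfl

/-- `ord`-version: an element of nonnegative order is a constant plus something of positive
order. -/
theorem exists_const_ord_sub_pos (hdeg : v.deg = 1) {f : F} (hf : f = 0 ∨ 0 ≤ v.ord f) :
    ∃ c : K, f = algebraMap K F c ∨ 0 < v.ord (f - algebraMap K F c) := by
  have hmem : f ∈ v.toValuationSubring := (mem_iff_ord v).mpr hf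
  obtain ⟨c, hc⟩ := exists_const_sub_mem_maximalIdeal v hdeg ⟨f, hmem⟩
  refine ⟨c, ?_⟩
  rw [mem_maximalIdeal_iff_ord] at hc
  rcases hc with h | h
  · left
    have : f - algebraMap K F c = 0 := h
    exact sub_eq_zero.mp this
  · right
    exact h

/-- Existence of a uniformizer as an irreducible element of the valuation ring. -/
theorem exists_irreducible_ord_one :
    ∃ π : v.toValuationSubring, Irreducible π ∧ v.ord (π : F) = 1 := by
  obtain ⟨π, hπ⟩ := IsDiscreteValuationRing.exists_irreducible v.toValuationSubring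
  exact ⟨π, hπ, v.ord_coe_irreducible hπ⟩

end Fermat.Agent.H23

end
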