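/-
S24 assembly (helper23): the frozen statement follows from the three packages
`RiemannHurwitzStatement`, `ModularDataStatement N`, `GenusNatStatement N`.
-/
import Fermat.Agent.H23.Blueprint

set_option autoImplicit false

noncomputable section

open AlgebraicCurve KaehlerDifferential IntermediateField

namespace Fermat.Agent.H23

theorem genus_eq_of_packages (N : ℕ) [NeZero N]
    [HasCanonicalDivisor (K := AlgebraicClosure ℚ)
      (F := ↥(ModularCurve.modularFunctionFieldBar N))]
    (hRH : RiemannHurwitzStatement) (hMOD : ModularDataStatement N)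
    (hNUM : GenusNatStatement N) :
    (AlgebraicCurve.genus (AlgebraicClosure ℚ) ↥(ModularCurve.modularFunctionFieldBar N) : ℚ)
      = ModularCurve.genusFormula N := by
  classical
  obtain ⟨x, hx, hfin, hdeg, a₀, a₁, ha, L, Linf, hL, hLinf, hε, h3, h2, hc⟩ := hMOD
  obtain ⟨g, hg⟩ := hNUM
  have hS : ∀ a, a ∉ ({a₀, a₁} : Finset (AlgebraicClosure ℚ)) → (L a).ε = 1 := by
    intro a haS
    simp only [Finset.mem_insert, Finset.mem_singleton, not_or] at haS
    exact hε a haS.1 haS.2
  obtain ⟨hex, hdegD⟩ := hRH (AlgebraicClosure ℚ) ↥(ModularCurve.modularFunctionFieldBar N)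
    x hx hfin {a₀, a₁} L Linf (fun a => (hL a).trans hdeg.symm) (hLinf.trans hdeg.symm) hS
  have key := hdegD hex.choose hex.choose_spec (canonicalDivisorOf hex.choose_spec)
    (fun v => canonicalDivisorOf_apply hex.choose_spec v)
  rw [Finset.sum_pair ha, hdeg] at key
  -- numerics
  have hgF : ModularCurve.genusFormula N = (g : ℚ) := hg
  unfold ModularCurve.genusFormula at hgF
  have h3' : (3 : ℚ) * numOrbits (L a₀).ε
      = ModularCurve.dedekindPsi N + 2 * ModularCurve.nuThree N := by exact_mod_cast h3
  have h2' : (2 : ℚ) * numOrbits (L a₁).ε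
      = ModularCurve.dedekindPsi N + ModularCurve.nuTwo N := by exact_mod_cast h2
  have hc' : (numOrbits Linf.ε : ℚ) = ModularCurve.cuspCount N := by exact_mod_cast hc
  have keyQ : ((Divisor.degree (canonicalDivisorOf hex.choose_spec) : ℤ) : ℚ)
      = 2 * (g : ℚ) - 2 := by
    rw [key]
    push_cast
    linarith
  have keyZ : Divisor.degree (canonicalDivisorOf hex.choose_spec) = 2 * (g : ℤ) - 2 := by
    exact_mod_cast keyQ
  rw [hg]
  unfold AlgebraicCurve.genus
  rw [dif_pos hex, keyZ]
  have : (2 * (g : ℤ) - 2 + 2).toNat / 2 = g := by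
    have : (2 * (g : ℤ) - 2 + 2) = ((2 * g : ℕ) : ℤ) := by push_cast; ring
    rw [this, Int.toNat_natCast]
    omega
  exact_mod_cast this

end Fermat.Agent.H23

end
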