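/-
S24, modular assembly (helper23):
`AnalyticStatement N ∧ DegreeStatement N ∧ CosetCombinatoricsStatement N → ModularDataStatement N`.
-/
import Fermat.Agent.H23.BlueprintMod

set_option autoImplicit false

noncomputable section

open AlgebraicCurve KaehlerDifferential IntermediateField
open scoped MatrixGroups

namespace Fermat.Agent.H23

variable {N : ℕ} [NeZero N]

local notation "Kbar" => AlgebraicClosure ℚ
set_option quotPrecheck false in
local notation "FN" => ↥(ModularCurve.modularFunctionFieldBar N)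
local notation "G" => SL(2, ℤ)
local notation "Γ₀N" => CongruenceSubgroup.Gamma0 N

/-- Turn an analytic datum (indexed by `SL(2,ℤ)`) into a local datum (indexed by cosets). -/
def AnalyticDatum.toLocalDatum {y : FN} {g : G} {e₀ : ℕ}
    (A : AnalyticDatum N y g e₀) (he : 0 < e₀) [Fintype (G ⧸ Γ₀N)] :
    LocalDatum Kbar FN y where
  M := A.M
  val := A.val
  der := A.der
  der_add := A.der_add
  der_mul := A.der_mul
  val_der := A.val_der
  I := G ⧸ Γ₀N
  σ := Quotient.lift A.σ (fun γ γ' h => (A.σ_eq_iff γ γ').mpr (QuotientGroup.leftRel_apply.mp h))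
  val_const := by
    rintro ⟨γ⟩ c hc
    exact A.val_const γ c hc
  der_const := by
    rintro ⟨γ⟩ c
    exact A.der_const γ c
  σ_const := by
    rintro ⟨γ⟩ ⟨γ'⟩ c
    exact A.σ_const γ γ' c
  σ_inj := by
    rintro ⟨γ⟩ ⟨γ'⟩ h
    exact Quotient.sound (QuotientGroup.leftRel_apply.mpr ((A.σ_eq_iff γ γ').mp h))
  σ_y := by
    rintro ⟨γ⟩ ⟨γ'⟩
    exact A.σ_y γ γ'
  e₀ := e₀
  e₀_pos := he
  val_y := by
    rintro ⟨γ⟩
    exact A.val_y γ
  ε := MulAction.toPerm g
  val_ε := by
    rintro ⟨γ⟩ f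
    exact A.val_g γ f
  val_dvd := by
    rintro ⟨γ⟩ k hk f hf
    refine A.val_dvd γ k ?_ f hf
    have h1 : ((MulAction.toPerm g : Equiv.Perm (G ⧸ Γ₀N)) ^ k) = MulAction.toPerm (g ^ k) := by
      rw [← MulAction.toPermHom_apply, ← map_pow]; rfl
    rw [h1] at hk
    have h2 : ((g ^ k * γ : G) : G ⧸ Γ₀N) = (γ : G ⧸ Γ₀N) := hk
    rw [QuotientGroup.eq] at h2
    have h3 := (Γ₀N).inv_mem h2
    simpa [mul_assoc] using h3

@[simp] lemma AnalyticDatum.toLocalDatum_I {y : FN} {g : G} {e₀ : ℕ}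
    (A : AnalyticDatum N y g e₀) (he : 0 < e₀) [Fintype (G ⧸ Γ₀N)] :
    (A.toLocalDatum he).I = (G ⧸ Γ₀N) := rfl

@[simp] lemma AnalyticDatum.toLocalDatum_ε {y : FN} {g : G} {e₀ : ℕ}
    (A : AnalyticDatum N y g e₀) (he : 0 < e₀) [Fintype (G ⧸ Γ₀N)] :
    (A.toLocalDatum he).ε = (MulAction.toPerm g : Equiv.Perm (G ⧸ Γ₀N)) := rfl

end Fermat.Agent.H23

end

noncomputable section

open AlgebraicCurve KaehlerDifferential IntermediateField
open scoped MatrixGroups

namespace Fermat.Agent.H23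

variable {N : ℕ} [NeZero N]

lemma dedekindPsi_pos (N : ℕ) [NeZero N] : 0 < ModularCurve.dedekindPsi N := by
  unfold ModularCurve.dedekindPsi
  have hN : N ≠ 0 := NeZero.ne N
  have h1 : 1 ∈ (N.divisors).filter (fun d => Squarefree d) := by
    simp [hN]
  refine lt_of_lt_of_le ?_ (Finset.single_le_sum (f := fun d => N / d)
    (fun i _ => Nat.zero_le _) h1)
  simpa using Nat.pos_of_ne_zero hN

/-- Distinct embeddings agreeing on `K` and on `y` bound the degree from below. -/
lemma card_le_finrank_of_analyticDatum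
    {g : SL(2, ℤ)} {e₀ : ℕ}
    (A : AnalyticDatum N (jBar N)⁻¹ g e₀)
    [FiniteDimensional (AlgebraicClosure ℚ)⟮jBar N⟯ ↥(ModularCurve.modularFunctionFieldBar N)] :
    Nat.card (SL(2, ℤ) ⧸ CongruenceSubgroup.Gamma0 N)
      ≤ Module.finrank (AlgebraicClosure ℚ)⟮jBar N⟯ ↥(ModularCurve.modularFunctionFieldBar N) := by
  classical
  -- all embeddings agree on `K⟮j⟯`
  have hagree : ∀ (γ : SL(2, ℤ)) (e : ↥(ModularCurve.modularFunctionFieldBar N)),
      e ∈ (AlgebraicClosure ℚ)⟮jBar N⟯ → A.σ γ e = A.σ 1 e := by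
    intro γ e he
    induction he using IntermediateField.adjoin_induction with
    | mem x hx =>
      rw [Set.mem_singleton_iff] at hx
      subst hx
      have h := A.σ_y γ 1
      rw [map_inv₀, map_inv₀] at h
      exact inv_injective h
    | algebraMap c => exact A.σ_const γ 1 c
    | add x y _ _ hx hy => rw [map_add, map_add, hx, hy]
    | inv x _ hx => rw [map_inv₀, map_inv₀, hx]
    | mul x y _ _ hx hy => rw [map_mul, map_mul, hx, hy]
  let _ : Algebra (AlgebraicClosure ℚ)⟮jBar N⟯ A.M :=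
    ((A.σ 1).comp (algebraMap (AlgebraicClosure ℚ)⟮jBar N⟯
      ↥(ModularCurve.modularFunctionFieldBar N))).toAlgebra
  let φ : (SL(2, ℤ) ⧸ CongruenceSubgroup.Gamma0 N) →
      (↥(ModularCurve.modularFunctionFieldBar N) →ₐ[(AlgebraicClosure ℚ)⟮jBar N⟯] A.M) :=
    fun q => Quotient.liftOn q
      (fun γ => ({ A.σ γ with
        commutes' := fun e => hagree γ (e : ↥(ModularCurve.modularFunctionFieldBar N)) e.2 } :
        ↥(ModularCurve.modularFunctionFieldBar N) →ₐ[(AlgebraicClosure ℚ)⟮jBar N⟯] A.M))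
      (fun γ γ' h => by
        have := (A.σ_eq_iff γ γ').mpr (QuotientGroup.leftRel_apply.mp h)
        exact AlgHom.ext fun f => congrArg (fun s => s f) this)
  have hφ : Function.Injective φ := by
    rintro ⟨γ⟩ ⟨γ'⟩ h
    refine Quotient.sound (QuotientGroup.leftRel_apply.mpr ((A.σ_eq_iff γ γ').mp ?_))
    ext1 f
    exact congrArg (fun s : (↥(ModularCurve.modularFunctionFieldBar N)
      →ₐ[(AlgebraicClosure ℚ)⟮jBar N⟯] A.M) => s f) h
  exact (Nat.card_le_card_of_injective φ hφ).trans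
    (card_algHom_le_finrank (AlgebraicClosure ℚ)⟮jBar N⟯
      ↥(ModularCurve.modularFunctionFieldBar N) A.M)

theorem modularData_of_packages (hAN : AnalyticStatement N) (hDEG : DegreeStatement N)
    (hCOMB : CosetCombinatoricsStatement N) : ModularDataStatement N := by
  classical
  obtain ⟨hgen, ⟨A0⟩, ⟨A1⟩, ⟨Ainf⟩⟩ := hAN
  obtain ⟨htr, hfd, hle⟩ := hDEG
  obtain ⟨hcard, h3, h2, hT⟩ := hCOMB
  have hpos := dedekindPsi_pos N
  have : Finite (SL(2, ℤ) ⧸ CongruenceSubgroup.Gamma0 N) :=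
    Nat.finite_of_card_ne_zero (by rw [hcard]; exact hpos.ne')
  let _ : Fintype (SL(2, ℤ) ⧸ CongruenceSubgroup.Gamma0 N) := Fintype.ofFinite _
  have hcardF : Fintype.card (SL(2, ℤ) ⧸ CongruenceSubgroup.Gamma0 N)
      = ModularCurve.dedekindPsi N := by
    rw [← Nat.card_eq_fintype_card, hcard]
  have hNpos : 0 < N := Nat.pos_of_ne_zero (NeZero.ne N)
  have h1728 : (0 : AlgebraicClosure ℚ) ≠ 1728 := by norm_num
  refine ⟨jBar N, htr, hfd, ?_, 0, 1728, h1728, ?_⟩
  · have := hfd
    exact le_antisymm (hle.trans hcard.le)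
      (hcard.symm.le.trans (card_le_finrank_of_analyticDatum Ainf))
  · let L : ∀ a : AlgebraicClosure ℚ,
        LocalDatum (AlgebraicClosure ℚ) ↥(ModularCurve.modularFunctionFieldBar N)
          (jBar N - algebraMap _ _ a) := fun a =>
      if h0 : a = 0 then h0 ▸ A0.toLocalDatum (by norm_num)
      else if h1 : a = 1728 then h1 ▸ A1.toLocalDatum (by norm_num)
      else (hgen a h0 h1).some.toLocalDatum (by norm_num)
    have hL0 : L 0 = A0.toLocalDatum (by norm_num) := by
      simp only [L, dif_pos]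
    have hL1 : L 1728 = A1.toLocalDatum (by norm_num) := by
      simp only [L, dif_neg h1728.symm, dif_pos]
    have hLg : ∀ a (h0 : a ≠ 0) (h1 : a ≠ 1728),
        L a = (hgen a h0 h1).some.toLocalDatum (by norm_num) := by
      intro a h0 h1
      simp only [L, dif_neg h0, dif_neg h1]
    refine ⟨L, Ainf.toLocalDatum hNpos, ?_, hcardF, ?_, ?_, ?_, ?_⟩
    · intro a
      by_cases h0 : a = 0
      · subst h0; rw [hL0]; exact hcardF
      · by_cases h1 : a = 1728
        · subst h1; rw [hL1]; exact hcardF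
        · rw [hLg a h0 h1]; exact hcardF
    · intro a h0 h1
      rw [hLg a h0 h1]
      show (MulAction.toPerm (1 : SL(2, ℤ)) : Equiv.Perm (SL(2, ℤ) ⧸ CongruenceSubgroup.Gamma0 N))
        = 1
      exact map_one (MulAction.toPermHom _ _)
    · rw [hL0]; exact h3
    · rw [hL1]; exact h2
    · exact hT

end Fermat.Agent.H23

end
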