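/-
S24 blueprint, algebra side (helper23): statement-Props for the sub-packages of
`RiemannHurwitzStatement`.  All are general facts about a function field `F/K` of one variable
over an algebraically closed field of characteristic zero.
-/
import Fermat.Agent.H23.Blueprint

set_option autoImplicit false

noncomputable section

open AlgebraicCurve KaehlerDifferential IntermediateField

namespace Fermat.Agent.H23

/-- **RH-1** Fundamental identity `∑ e_v = [F : K(y)]` over the zeros of `y`, and residue
degree one everywhere. -/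
def FundamentalIdentityStatement : Prop :=
  ∀ (K F : Type) [Field K] [Field F] [Algebra K F] [IsAlgClosed K] [CharZero K]
    (y : F), Transcendental K y → FiniteDimensional K⟮y⟯ F →
    (∀ v : Place K F, v.deg = 1) ∧
    {v : Place K F | 0 < v.ord y}.Finite ∧
    ∑ᶠ v ∈ {v : Place K F | 0 < v.ord y}, v.ord y = (Module.finrank K⟮y⟯ F : ℤ)

/-- **RH-2** Principal divisors have degree zero. -/
def PrincipalDegreeStatement : Prop :=
  ∀ (K F : Type) [Field K] [Field F] [Algebra K F] [IsAlgClosed K] [CharZero K]
    (x : F), Transcendental K x → FiniteDimensional K⟮x⟯ F →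
    ∀ f : F, f ≠ 0 → ∀ D : Divisor K F, (∀ v, D v = v.ord f) → Divisor.degree D = 0

/-- **RH-3** Kähler differentials: `dz` spans `Ω[F⁄K]` for every transcendental `z`, and the
coordinate differential `v.dCoord` of every place spans. -/
def KaehlerStatement : Prop :=
  ∀ (K F : Type) [Field K] [Field F] [Algebra K F] [IsAlgClosed K] [CharZero K]
    (x : F), Transcendental K x → FiniteDimensional K⟮x⟯ F →
    (∀ z : F, Transcendental K z → ∀ ω : Ω[F⁄K], ∃ f : F, ω = f • D K F z) ∧
    (∀ v : Place K F, ∀ ω : Ω[F⁄K], ∃ f : F, ω = f • v.dCoord)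

/-- **RH-4** A field embedding into a discretely valued field, trivial on constants and
nontrivial on `F`, induces a place, with proportional order function. -/
def InducedPlaceStatement : Prop :=
  ∀ (K F : Type) [Field K] [Field F] [Algebra K F]
    (M : Type) [Field M] (val : AddValuation M (WithTop ℤ)) (σ : F →+* M),
    (∀ c : K, c ≠ 0 → val (σ (algebraMap K F c)) = 0) →
    (∃ y : F, y ≠ 0 ∧ val (σ y) ≠ 0) →
    ∃ (v : Place K F) (m : ℕ), 0 < m ∧
      ∀ f : F, f ≠ 0 → val (σ f) = (((m : ℤ) * v.ord f : ℤ) : WithTop ℤ)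

/-- **RH-5** Local counting: the places over the zeros of `y` are in bijection with the orbits
of `ε`, with ramification index = orbit size; every such place is induced by some `σ i`. -/
def LocalCountingStatement : Prop :=
  ∀ (K F : Type) [Field K] [Field F] [Algebra K F] [IsAlgClosed K] [CharZero K]
    (y : F) (L : LocalDatum K F y),
    (∀ v : Place K F, v.deg = 1) →
    {v : Place K F | 0 < v.ord y}.Finite →
    (∑ᶠ v ∈ {v : Place K F | 0 < v.ord y}, v.ord y = (Fintype.card L.I : ℤ)) →
    (∀ v : Place K F, 0 < v.ord y → ∃ (i : L.I) (m : ℕ), 0 < m ∧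
        ∀ f : F, f ≠ 0 → L.val (L.σ i f) = (((m : ℤ) * v.ord f : ℤ) : WithTop ℤ)) ∧
    ∑ᶠ v ∈ {v : Place K F | 0 < v.ord y}, (v.ord y - 1)
      = (Fintype.card L.I : ℤ) - numOrbits L.ε

/-- **RH-6** Order of the differential `dy` at a place where `y` has nonzero order, computed
through an embedding into a valued differential field. -/
def DifferentialOrderStatement : Prop :=
  ∀ (K F : Type) [Field K] [Field F] [Algebra K F]
    (M : Type) [Field M] (val : AddValuation M (WithTop ℤ)) (der : M → M),
    (∀ a b : M, der (a + b) = der a + der b) →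
    (∀ a b : M, der (a * b) = a * der b + der a * b) →
    (∀ (a : M) (n : ℤ), n ≠ 0 → val a = (n : WithTop ℤ) →
      val (der a) = ((n - 1 : ℤ) : WithTop ℤ)) →
    ∀ (σ : F →+* M), (∀ c : K, der (σ (algebraMap K F c)) = 0) →
    ∀ (v : Place K F) (m : ℕ), 0 < m →
    (∀ f : F, f ≠ 0 → val (σ f) = (((m : ℤ) * v.ord f : ℤ) : WithTop ℤ)) →
    (∀ ω : Ω[F⁄K], ∃ f : F, ω = f • v.dCoord) →
    ∀ y : F, v.ord y ≠ 0 →
      D K F y ≠ 0 ∧ v.ordDifferential (D K F y) = v.ord y - 1

end Fermat.Agent.H23

end
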