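/-
GEN-7 (helper23): Riemann–Hurwitz assembly.
`GEN-1, GEN-2, GEN-3, GEN-5, GEN-6  ⟹  RiemannHurwitzStatement`.
-/
import Fermat.Agent.H23.BlueprintRH
import Fermat.Agent.H23.PlaceBasic

set_option autoImplicit false

noncomputable section

open AlgebraicCurve KaehlerDifferential IntermediateField

namespace Fermat.Agent.H23

section Basic

variable {K F : Type} [Field K] [Field F] [Algebra K F]

theorem adjoin_sub_const (x : F) (a : K) : K⟮x - algebraMap K F a⟯ = K⟮x⟯ := by
  apply le_antisymm
  · rw [adjoin_simple_le_iff]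
    exact sub_mem (mem_adjoin_simple_self K x) (IntermediateField.algebraMap_mem _ a)
  · rw [adjoin_simple_le_iff]
    have h : x = (x - algebraMap K F a) + algebraMap K F a := by ring
    have h2 : (x - algebraMap K F a) + algebraMap K F a ∈ K⟮x - algebraMap K F a⟯ :=
      add_mem (mem_adjoin_simple_self K _) (IntermediateField.algebraMap_mem _ a)
    rwa [← h] at h2

theorem adjoin_inv (x : F) : K⟮x⁻¹⟯ = K⟮x⟯ := by
  apply le_antisymm
  · rw [adjoin_simple_le_iff]
    exact inv_mem (mem_adjoin_simple_self K x)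
  · rw [adjoin_simple_le_iff]
    have h2 : (x⁻¹)⁻¹ ∈ K⟮x⁻¹⟯ := inv_mem (mem_adjoin_simple_self K _)
    rwa [inv_inv] at h2

theorem transcendental_sub_const {x : F} (hx : Transcendental K x) (a : K) :
    Transcendental K (x - algebraMap K F a) := by
  intro h
  apply hx
  have : x = (x - algebraMap K F a) + algebraMap K F a := by ring
  rw [this]
  exact h.add (isAlgebraic_algebraMap a)

theorem transcendental_inv {x : F} (hx : Transcendental K x) : Transcendental K x⁻¹ := by
  intro h
  apply hx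
  have := h.inv
  rwa [inv_inv] at this

theorem D_sub_const (x : F) (a : K) : D K F (x - algebraMap K F a) = D K F x := by
  rw [map_sub, Derivation.map_algebraMap, sub_zero]

theorem D_eq_neg_sq_smul_D_inv {x : F} (hx : x ≠ 0) :
    D K F x = (-(x ^ 2)) • D K F x⁻¹ := by
  have h1 : D K F (x * x⁻¹) = 0 := by
    rw [mul_inv_cancel₀ hx]; exact Derivation.map_one_eq_zero _
  rw [Derivation.leibniz] at h1
  -- h1 : x • D x⁻¹ + x⁻¹ • D x = 0
  have h2 : x⁻¹ • D K F x = -(x • D K F x⁻¹) := eq_neg_of_add_eq_zero_right h1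
  have h3 : D K F x = x • (x⁻¹ • D K F x) := by
    rw [smul_smul, mul_inv_cancel₀ hx, one_smul]
  rw [h3, h2, smul_neg, smul_smul, neg_smul, pow_two]

end Basic

end Fermat.Agent.H23

end

noncomputable section

open AlgebraicCurve KaehlerDifferential IntermediateField

namespace Fermat.Agent.H23

section Point

variable {K F : Type} [Field K] [Field F] [Algebra K F] [IsAlgClosed K] [CharZero K]

/-- Everything we need over the zeros of a single `y`. -/
theorem point_package (hFI : FundamentalIdentityStatement) (hLC : LocalCountingStatement)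
    (hDO : DifferentialOrderStatement)
    (hspanv : ∀ (v : Place K F) (ω : Ω[F⁄K]), ∃ f : F, ω = f • v.dCoord)
    (x : F) (hfin : FiniteDimensional K⟮x⟯ F)
    (y : F) (hy : Transcendental K y) (hyx : K⟮y⟯ = K⟮x⟯)
    (L : LocalDatum K F y) (hcard : Fintype.card L.I = Module.finrank K⟮x⟯ F) :
    (∀ v : Place K F, v.deg = 1) ∧
    {v : Place K F | 0 < v.ord y}.Finite ∧
    ∑ᶠ v ∈ {v : Place K F | 0 < v.ord y}, v.ord y = (Module.finrank K⟮x⟯ F : ℤ) ∧
    ∑ᶠ v ∈ {v : Place K F | 0 < v.ord y}, (v.ord y - 1)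
      = (Module.finrank K⟮x⟯ F : ℤ) - numOrbits L.ε ∧
    (∀ v : Place K F, 0 < v.ord y →
      D K F y ≠ 0 ∧ v.ordDifferential (D K F y) = v.ord y - 1) := by
  have hfiny : FiniteDimensional K⟮y⟯ F := by rw [hyx]; exact hfin
  have hrank : Module.finrank K⟮y⟯ F = Module.finrank K⟮x⟯ F := by rw [hyx]
  obtain ⟨hdeg, hVfin, hsum⟩ := hFI K F y hy hfiny
  rw [hrank] at hsum
  have hsum' : ∑ᶠ v ∈ {v : Place K F | 0 < v.ord y}, v.ord y = (Fintype.card L.I : ℤ) := by
    rw [hsum, hcard]
  obtain ⟨hind, hcount⟩ := hLC K F y L hdeg hVfin hsum'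
  rw [hcard] at hcount
  refine ⟨hdeg, hVfin, hsum, hcount, ?_⟩
  intro v hv
  obtain ⟨i, m, hm, hσ⟩ := hind v hv
  exact hDO K F L.M L.val L.der L.der_add L.der_mul L.val_der (L.σ i) (L.der_const i)
    v m hm hσ (hspanv v) y hv.ne'

end Point

end Fermat.Agent.H23

end

noncomputable section

open AlgebraicCurve KaehlerDifferential IntermediateField

namespace Fermat.Agent.H23

section Global

variable {K F : Type} [Field K] [Field F] [Algebra K F] [IsAlgClosed K] [CharZero K]

theorem degree_eq_sum (D : Divisor K F) (hdeg : ∀ v : Place K F, v.deg = 1) :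
    Divisor.degree D = ∑ v ∈ D.support, D v := by
  unfold Divisor.degree
  rw [Finsupp.liftAddHom_apply, Finsupp.sum]
  refine Finset.sum_congr rfl fun v _ => ?_
  simp [hdeg v]

/-- A place lies over a unique point of the `x`-line. -/
theorem exists_point (hdeg : ∀ v : Place K F, v.deg = 1) {x : F} (hx : Transcendental K x)
    (v : Place K F) :
    0 < v.ord x⁻¹ ∨ ∃ a : K, 0 < v.ord (x - algebraMap K F a) := by
  rcases lt_or_ge (v.ord x) 0 with h | h
  · left
    rw [v.ord_inv]; omega
  · right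
    obtain ⟨c, hc | hc⟩ := exists_const_ord_sub_pos v (hdeg v) (Or.inr h)
    · exact absurd (hc ▸ isAlgebraic_algebraMap c) hx
    · exact ⟨c, hc⟩

theorem not_pos_pos_of_ne (v : Place K F) (x : F) {a b : K} (hab : a ≠ b)
    (ha : 0 < v.ord (x - algebraMap K F a)) (hb : 0 < v.ord (x - algebraMap K F b)) : False := by
  have hne : algebraMap K F (b - a) ≠ 0 := by
    rw [Ne, map_eq_zero]
    exact sub_ne_zero.mpr (Ne.symm hab)
  have h0 : v.ord (algebraMap K F (b - a)) = 0 := ord_algebraMap v _
  have h1 : (x - algebraMap K F a) + (-(x - algebraMap K F b)) = algebraMap K F (b - a) := by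
    rw [map_sub]; ring
  have h2 : 1 ≤ v.ord ((x - algebraMap K F a) + (-(x - algebraMap K F b))) := by
    refine ord_add_ge v (by rw [h1]; exact hne) 1 (Or.inr ha) (Or.inr ?_)
    rw [ord_neg]; exact hb
  rw [h1, h0] at h2
  omega

theorem not_pos_inv_pos (v : Place K F) (x : F) {a : K}
    (ha : 0 < v.ord (x - algebraMap K F a)) (hinf : 0 < v.ord x⁻¹) : False := by
  rw [v.ord_inv] at hinf
  have hx0 : x ≠ 0 := by
    rintro rfl
    simp at hinf
  have h2 : 0 ≤ v.ord ((x - algebraMap K F a) + algebraMap K F a) := by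
    refine ord_add_ge v (by simpa using hx0) 0 (Or.inr ha.le) ?_
    by_cases h : algebraMap K F a = 0
    · exact Or.inl h
    · exact Or.inr (ord_algebraMap v a).ge
  simp only [sub_add_cancel] at h2
  omega

end Global

end Fermat.Agent.H23

end

noncomputable section

open AlgebraicCurve KaehlerDifferential IntermediateField

namespace Fermat.Agent.H23

section Main

variable {K F : Type} [Field K] [Field F] [Algebra K F] [IsAlgClosed K] [CharZero K]

/-- The sum over the zeros of `y` of `-(e + 1)`, from the sums of `e` and of `e - 1`. -/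
theorem finsum_neg_sub_one {s : Set (Place K F)} (hs : s.Finite) (e : Place K F → ℤ)
    (n c : ℤ) (h1 : ∑ᶠ v ∈ s, e v = n) (h2 : ∑ᶠ v ∈ s, (e v - 1) = n - c) :
    ∑ v ∈ hs.toFinset, (-(e v) - 1) = -2 * n + (n - c) := by
  rw [finsum_mem_eq_finite_toFinset_sum _ hs] at h1 h2
  have : ∑ v ∈ hs.toFinset, (-(e v) - 1)
      = -2 * ∑ v ∈ hs.toFinset, e v + ∑ v ∈ hs.toFinset, (e v - 1) := by
    rw [Finset.mul_sum, ← Finset.sum_add_distrib]
    exact Finset.sum_congr rfl fun v _ => by ring
  rw [this, h1, h2]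

theorem riemannHurwitz (hFI : FundamentalIdentityStatement) (hPD : PrincipalDegreeStatement)
    (hKD : KaehlerStatement) (hLC : LocalCountingStatement)
    (hDO : DifferentialOrderStatement) : RiemannHurwitzStatement := by
  classical
  intro K F _ _ _ _ _ _ x hx hfin S L Linf hcard hcardinf hS
  obtain ⟨hspanz, hspanv⟩ := hKD K F x hx hfin
  have hx0 : x ≠ 0 := fun h => hx (h ▸ isAlgebraic_zero)
  -- per-point packages
  have P := fun a : K => point_package hFI hLC hDO hspanv x hfin (x - algebraMap K F a)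
    (transcendental_sub_const hx a) (adjoin_sub_const x a) (L a) (hcard a)
  have Pinf := point_package hFI hLC hDO hspanv x hfin x⁻¹
    (transcendental_inv hx) (adjoin_inv x) Linf hcardinf
  have hdeg : ∀ v : Place K F, v.deg = 1 := Pinf.1
  set n : ℤ := (Module.finrank K⟮x⟯ F : ℤ) with hn
  have hnpos : 0 < n := by
    have : 0 < Module.finrank K⟮x⟯ F := Module.finrank_pos
    rw [hn]
    exact_mod_cast this
  -- a place over infinity exists
  obtain ⟨vinf, hvinf⟩ : ∃ v : Place K F, 0 < v.ord x⁻¹ := by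
    by_contra hnone
    simp only [not_exists] at hnone
    have hempty : {v : Place K F | 0 < v.ord x⁻¹} = ∅ := by
      ext v; simpa using hnone v
    have := Pinf.2.2.1
    rw [hempty, finsum_mem_empty] at this
    omega
  have hDinv : D K F x⁻¹ ≠ 0 := (Pinf.2.2.2.2 vinf hvinf).1
  have hDx : D K F x ≠ 0 := by
    rw [D_eq_neg_sq_smul_D_inv hx0]
    exact smul_ne_zero (neg_ne_zero.mpr (pow_ne_zero 2 hx0)) hDinv
  refine ⟨⟨D K F x, hDx⟩, ?_⟩
  intro ω hω Dω hDω
  -- instances
  haveI : Nontrivial Ω[F⁄K] := ⟨⟨D K F x, 0, hDx⟩⟩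
  have hgen : ∀ v : Place K F, v.DCoordGenerates := fun v =>
    ⟨by
      rw [eq_top_iff]
      intro ω _
      obtain ⟨f, hf⟩ := hspanv v ω
      rw [hf]
      exact Submodule.smul_mem _ _ (Submodule.mem_span_singleton_self _)⟩
  have hcoeff_ne : ∀ (v : Place K F) (η : Ω[F⁄K]), η ≠ 0 → v.differentialCoeff η ≠ 0 := by
    intro v η hη h0
    haveI := hgen v
    have := v.differentialCoeff_smul_dCoord η
    rw [h0, zero_smul] at this
    exact hη this.symm
  -- the order function of `dx`
  set g : Place K F → ℤ := fun v => v.ordDifferential (D K F x) with hg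
  have hg_fin : ∀ (a : K) (v : Place K F), 0 < v.ord (x - algebraMap K F a) →
      g v = v.ord (x - algebraMap K F a) - 1 := by
    intro a v hv
    have := ((P a).2.2.2.2 v hv).2
    rwa [D_sub_const] at this
  have hg_inf : ∀ v : Place K F, 0 < v.ord x⁻¹ → g v = -(v.ord x⁻¹) - 1 := by
    intro v hv
    haveI := hgen v
    have h1 := (Pinf.2.2.2.2 v hv).2
    show v.ordDifferential (D K F x) = _
    rw [D_eq_neg_sq_smul_D_inv hx0,
      v.ordDifferential_smul (neg_ne_zero.mpr (pow_ne_zero 2 hx0)) (hcoeff_ne v _ hDinv), h1,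
      ord_neg, ← zpow_natCast, v.ord_zpow]
    have : v.ord x = -(v.ord x⁻¹) := by rw [v.ord_inv]; ring
    rw [this]
    push_cast
    ring
  -- `ω = f • dx`
  obtain ⟨f, hf⟩ := hspanz x hx ω
  have hf0 : f ≠ 0 := by
    rintro rfl
    rw [zero_smul] at hf
    exact hω hf
  have hDv : ∀ v : Place K F, Dω v = v.ord f + g v := by
    intro v
    haveI := hgen v
    rw [hDω v, hf, v.ordDifferential_smul hf0 (hcoeff_ne v _ hDx)]
  -- canonical divisor of `dx`
  obtain ⟨D₀, hD₀⟩ := HasCanonicalDivisor.exists_divisor (K := K) (F := F) (D K F x) hDx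
  have hE : Divisor.degree (Dω - D₀) = 0 := by
    refine hPD K F x hx hfin f hf0 (Dω - D₀) fun v => ?_
    rw [Finsupp.sub_apply, hDv v, hD₀ v]
    simp [hg]
  have hDD₀ : Divisor.degree Dω = Divisor.degree D₀ := by
    rw [map_sub, sub_eq_zero] at hE
    exact hE
  rw [hDD₀, degree_eq_sum D₀ hdeg]
  -- the finite sets
  set V : K → Finset (Place K F) := fun a => (P a).2.1.toFinset with hV
  set Vinf : Finset (Place K F) := Pinf.2.1.toFinset with hVinf
  have hmemV : ∀ a v, v ∈ V a ↔ 0 < v.ord (x - algebraMap K F a) := by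
    intro a v; simp [hV]
  have hmemVinf : ∀ v, v ∈ Vinf ↔ 0 < v.ord x⁻¹ := by
    intro v; simp [hVinf]
  -- unramified outside `S`
  have hunram : ∀ a, a ∉ S → ∀ v ∈ V a, g v = 0 := by
    intro a ha v hv
    have hsum := (P a).2.2.2.1
    rw [hS a ha] at hsum
    have horb : (numOrbits (1 : Equiv.Perm (L a).I) : ℤ) = n := by
      have h1 : numOrbits (1 : Equiv.Perm (L a).I) = Fintype.card (L a).I := by
        unfold numOrbits
        rw [← Nat.card_eq_fintype_card]
        refine Nat.card_congr (Equiv.symm ?_)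
        refine Equiv.ofBijective (Quotient.mk _) ⟨?_, Quotient.mk_surjective⟩
        intro i j hij
        have := Quotient.exact hij
        obtain ⟨k, hk⟩ := this
        simpa using hk
      rw [h1, hcard a]
    rw [horb, sub_self, finsum_mem_eq_finite_toFinset_sum _ (P a).2.1] at hsum
    have hnonneg : ∀ w ∈ (P a).2.1.toFinset, 0 ≤ w.ord (x - algebraMap K F a) - 1 := by
      intro w hw
      have : 0 < w.ord (x - algebraMap K F a) := by simpa using hw
      omega
    have hzero := (Finset.sum_eq_zero_iff_of_nonneg hnonneg).mp hsum v hv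
    rw [hg_fin a v ((hmemV a v).mp hv)]
    exact hzero
  set W : Finset (Place K F) := (S.biUnion V) ∪ Vinf with hW
  have hsupp : D₀.support ⊆ W := by
    intro v hv
    rw [Finsupp.mem_support_iff, hD₀ v] at hv
    rcases exists_point hdeg hx v with hinf | ⟨a, ha⟩
    · exact Finset.mem_union_right _ ((hmemVinf v).mpr hinf)
    · by_cases haS : a ∈ S
      · exact Finset.mem_union_left _ (Finset.mem_biUnion.mpr ⟨a, haS, (hmemV a v).mpr ha⟩)
      · exact absurd (hunram a haS v ((hmemV a v).mpr ha)) hv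
  have hsum1 : ∑ v ∈ D₀.support, D₀ v = ∑ v ∈ W, g v := by
    rw [Finset.sum_subset hsupp (fun v _ hv => by simpa using hv)]
    exact Finset.sum_congr rfl fun v _ => hD₀ v
  have hdisj1 : Disjoint (S.biUnion V) Vinf := by
    rw [Finset.disjoint_left]
    intro v hv hv'
    obtain ⟨a, _, ha⟩ := Finset.mem_biUnion.mp hv
    exact not_pos_inv_pos v x ((hmemV a v).mp ha) ((hmemVinf v).mp hv')
  have hdisj2 : (S : Set K).PairwiseDisjoint V := by
    intro a _ b _ hab
    show Disjoint (V a) (V b)
    rw [Finset.disjoint_left]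
    intro v hva hvb
    exact not_pos_pos_of_ne v x hab ((hmemV a v).mp hva) ((hmemV b v).mp hvb)
  rw [hsum1, hW, Finset.sum_union hdisj1, Finset.sum_biUnion hdisj2]
  have hA : ∀ a ∈ S, ∑ v ∈ V a, g v = n - numOrbits (L a).ε := by
    intro a _
    have hsum := (P a).2.2.2.1
    rw [finsum_mem_eq_finite_toFinset_sum _ (P a).2.1] at hsum
    rw [← hsum]
    exact Finset.sum_congr rfl fun v hv => hg_fin a v ((hmemV a v).mp hv)
  have hB : ∑ v ∈ Vinf, g v = -2 * n + (n - numOrbits Linf.ε) := by
    rw [← finsum_neg_sub_one Pinf.2.1 (fun v => v.ord x⁻¹) n _ Pinf.2.2.1 Pinf.2.2.2.1]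
    exact Finset.sum_congr rfl fun v hv => hg_inf v ((hmemVinf v).mp hv)
  rw [Finset.sum_congr rfl hA, hB]
  ring

end Main

end Fermat.Agent.H23

end
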