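/-
GEN-7 glue (helper23): `RiemannHurwitzStatement` from the two remaining packages
(GEN-1 fundamental identity, GEN-5 local counting), using the landed GEN-2/3/6.
-/
import Fermat.Agent.H23.RHAssembly
import Fermat.Agent.H12.Gen3
import Fermat.Agent.H34.DiffOrder

set_option autoImplicit false

namespace Fermat.Agent.H23

theorem riemannHurwitz_of_FI_LC (hFI : FundamentalIdentityStatement)
    (hLC : LocalCountingStatement) : RiemannHurwitzStatement :=
  riemannHurwitz hFI (Fermat.Agent.H12.principalDegree hFI) Fermat.Agent.H12.kaehler hLC
    Fermat.Agent.H34.differentialOrder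

end Fermat.Agent.H23
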