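/-
S24 final glue (helper23): the frozen statement from the four remaining packages.
-/
import Fermat.Agent.H23.Assembly
import Fermat.Agent.H23.AssemblyMod
import Fermat.Agent.H23.RHGlue
import Fermat.Agent.H85.ForH23

set_option autoImplicit false

open AlgebraicCurve

namespace Fermat.Agent.H23

theorem genus_eq_of_remaining (N : ℕ) [NeZero N]
    [HasCanonicalDivisor (K := AlgebraicClosure ℚ)
      (F := ↥(ModularCurve.modularFunctionFieldBar N))]
    (hFI : FundamentalIdentityStatement) (hLC : LocalCountingStatement)
    (hAN : AnalyticStatement N) (hDEG : DegreeStatement N) :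
    (AlgebraicCurve.genus (AlgebraicClosure ℚ) ↥(ModularCurve.modularFunctionFieldBar N) : ℚ)
      = ModularCurve.genusFormula N :=
  genus_eq_of_packages N (riemannHurwitz_of_FI_LC hFI hLC)
    (modularData_of_packages hAN hDEG (Fermat.Agent.H85.cosetCombinatorics N))
    (Fermat.Agent.H85.genusNat N)

end Fermat.Agent.H23
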