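/-
S24 final glue, stage 2 (helper23): the frozen statement from the last two open packages
(GEN-15 cusp datum, GEN-16 degree), everything else being landed.
-/
import Fermat.Agent.H23.Final
import Fermat.Agent.H29.FundamentalIdentity
import Fermat.Agent.H85.LocalCounting
import Fermat.Agent.H33.MerGerm
import Fermat.Agent.H44.Gen11.Core
import Fermat.Agent.H48.JFacts
import Fermat.Agent.H82.Separation
import Fermat.Agent.H61.GenAn6

set_option autoImplicit false

open AlgebraicCurve

namespace Fermat.Agent.H23

/-- Riemann–Hurwitz, unconditional. -/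
theorem riemannHurwitzStatement_holds : RiemannHurwitzStatement :=
  riemannHurwitz_of_FI_LC Fermat.Agent.H29.fundamentalIdentity Fermat.Agent.H85.localCounting

/-- The analytic package from the cusp datum. -/
theorem analyticStatement_of_cusp (N : ℕ) [NeZero N]
    (hCusp : Nonempty (AnalyticDatum N (jBar N)⁻¹ ModularGroup.T N)) :
    AnalyticStatement N := by
  obtain ⟨h1, h2, h3⟩ := Fermat.Agent.H61.analytic_finite_points N
    Fermat.Agent.H33.merGerm_statement (Fermat.Agent.H44.core N) Fermat.Agent.H48.jFacts
    (Fermat.Agent.H82.separation N)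
  exact ⟨h1, h2, h3, hCusp⟩

theorem genus_eq_of_cusp_degree (N : ℕ) [NeZero N]
    [HasCanonicalDivisor (K := AlgebraicClosure ℚ)
      (F := ↥(ModularCurve.modularFunctionFieldBar N))]
    (hCusp : Nonempty (AnalyticDatum N (jBar N)⁻¹ ModularGroup.T N))
    (hDEG : DegreeStatement N) :
    (AlgebraicCurve.genus (AlgebraicClosure ℚ) ↥(ModularCurve.modularFunctionFieldBar N) : ℚ)
      = ModularCurve.genusFormula N :=
  genus_eq_of_remaining N Fermat.Agent.H29.fundamentalIdentity Fermat.Agent.H85.localCounting
    (analyticStatement_of_cusp N hCusp) hDEG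

end Fermat.Agent.H23
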