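/-
S24 final glue, stage 3 (helper23): the frozen statement from the cusp datum alone.
-/
import Fermat.Agent.H23.Final2
import Fermat.Agent.H83.Gen16

set_option autoImplicit false

open AlgebraicCurve

namespace Fermat.Agent.H23

/-- GEN-16, unconditional. -/
theorem degreeStatement_holds (N : ℕ) [NeZero N] : DegreeStatement N :=
  Fermat.Agent.H83.degree_of_core N (Fermat.Agent.H44.core N) (Fermat.Agent.H44.core_rt N)

theorem genus_eq_of_cusp (N : ℕ) [NeZero N]
    [HasCanonicalDivisor (K := AlgebraicClosure ℚ)
      (F := ↥(ModularCurve.modularFunctionFieldBar N))]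
    (hCusp : Nonempty (AnalyticDatum N (jBar N)⁻¹ ModularGroup.T N)) :
    (AlgebraicCurve.genus (AlgebraicClosure ℚ) ↥(ModularCurve.modularFunctionFieldBar N) : ℚ)
      = ModularCurve.genusFormula N :=
  genus_eq_of_cusp_degree N hCusp (degreeStatement_holds N)

end Fermat.Agent.H23
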