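/-
Lemmas on the coordinate differential of a place (helper23).
-/
import Fermat.Agent.H23.PlaceBasic
import Fermat.Prelude.Def_AlgebraicCurve_CanonicalDivisor

set_option autoImplicit false

noncomputable section

open AlgebraicCurve WithZero IsLocalRing IsDedekindDomain KaehlerDifferential

namespace Fermat.Agent.H23

variable {K F : Type*} [Field K] [Field F] [Algebra K F] (v : Place K F)

/-- The coordinate differential of a place is `d π` for a uniformizer `π`. -/
theorem exists_uniformizer_dCoord :
    ∃ π : F, v.ord π = 1 ∧ v.dCoord = D K F π := by
  have hirr := (IsDiscreteValuationRing.exists_irreducible v.toValuationSubring).choose_spec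
  exact ⟨_, v.ord_coe_irreducible hirr, rfl⟩


end Fermat.Agent.H23

end
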